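import Fermat.Agent.LT.T6.H75.EllTwSpec
import Fermat.Agent.LT.T6.H514.CartanCC

/-!
# Row LT, tower T6, leaf T6.20e.2e.5 `ProfC75` (registry 1792) -- helper771

OFF-MAIN.  `profC771 : H75.ProfC75`, VERBATIM (frozen Prop of `LT/T6/H75/EllTwSpec.lean`,
helper75@d1103eba8, sha256 18e9b693), unconditional.  Imports: byte copies of the Spec closure of
helper75 and of `LT/T6/H514/CartanCC.lean` (78ef6b97, helper189@82225c074: `cartanCC514`).

Route: Cartan `g = k₁ a_d k₂` for `|det g| = 1` (`d = arcosh ρ(g) = radT634 (rhoC g)`), the scalar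
`sclC` is central, `φ` is bi-`U(2)`-invariant; `(u₁, u₂) ↦ dgC u₁ u₂` is continuous into `GL₂(ℂ)`;
`rhoC (dgC u₁ u₂) = cosh (u₁ - u₂)`, `rhoC` is continuous and `φ` has compact support.
-/

set_option autoImplicit false

open scoped Matrix
open MeasureTheory

noncomputable section

namespace Fermat.Agent.LT.T6.H771

open Fermat.Agent.LT.T6 Fermat.Agent.LT.T6.H189 Fermat.Agent.LT.T6.H634
open Fermat.Agent.LT.T6.H781 Fermat.Agent.LT.T6.H75 Fermat.Agent.LT.T6.H514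

theorem dgC_coe771 (u₁ u₂ : ℝ) :
    ((dgC u₁ u₂ : GL (Fin 2) ℂ) : Matrix (Fin 2) (Fin 2) ℂ)
      = !![(Real.exp u₁ : ℂ), 0; 0, (Real.exp u₂ : ℂ)] := rfl

theorem dgC_mul771 (a b c d : ℝ) : dgC a b * dgC c d = dgC (a + c) (b + d) := by
  apply Units.ext
  rw [Units.val_mul]
  show ((dgC a b : GL (Fin 2) ℂ) : Matrix (Fin 2) (Fin 2) ℂ)
      * ((dgC c d : GL (Fin 2) ℂ) : Matrix (Fin 2) (Fin 2) ℂ)
    = ((dgC (a + c) (b + d) : GL (Fin 2) ℂ) : Matrix (Fin 2) (Fin 2) ℂ)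
  rw [dgC_coe771, dgC_coe771, dgC_coe771]
  ext i j
  fin_cases i <;> fin_cases j <;>
    simp [Matrix.mul_apply, Fin.sum_univ_two, Real.exp_add]

theorem dgC_zero771 : dgC 0 0 = 1 := by
  apply Units.ext
  show ((dgC 0 0 : GL (Fin 2) ℂ) : Matrix (Fin 2) (Fin 2) ℂ) = 1
  rw [dgC_coe771]
  ext i j
  fin_cases i <;> fin_cases j <;> simp

theorem dgC_inv771 (a b : ℝ) : (dgC a b)⁻¹ = dgC (-a) (-b) := by
  apply inv_eq_of_mul_eq_one_right
  rw [dgC_mul771, add_neg_cancel, add_neg_cancel, dgC_zero771]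

/-- `sclC r` is central. -/
theorem sclC_comm771 (r : ℝ) (k : GL (Fin 2) ℂ) : sclC r * k = k * sclC r := by
  apply Units.ext
  rw [Units.val_mul, Units.val_mul]
  show ((sclC r : GL (Fin 2) ℂ) : Matrix (Fin 2) (Fin 2) ℂ) * (k : Matrix (Fin 2) (Fin 2) ℂ)
    = (k : Matrix (Fin 2) (Fin 2) ℂ) * ((sclC r : GL (Fin 2) ℂ) : Matrix (Fin 2) (Fin 2) ℂ)
  rw [sclC_coe514]
  exact scl_comm514 _ _

theorem sclC_mul_atC771 (r d : ℝ) : sclC r * atC d = dgC (r + d / 2) (r - d / 2) := by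
  unfold sclC atC
  rw [dgC_mul771, sub_eq_add_neg]

theorem radT_eq_arcosh771 (ρ : ℝ) : radT634 ρ = Real.arcosh ρ := rfl

theorem rhoQ_eq_rhoC771 (g : GL (Fin 2) ℂ) : rhoQ g = rhoC g := rfl

/-- The second clause of `ProfC75`. -/
theorem prof_value771 (φ : GL (Fin 2) ℂ → ℂ) (hφ : IsArchTestC φ) (D : ℝ)
    (g : GL (Fin 2) ℂ) (hg : ‖(g : Matrix (Fin 2) (Fin 2) ℂ).det‖ = 1) :
    φ (sclC (Real.log D / 4) * g) = profC634 φ D (rhoC g) := by
  obtain ⟨-, k₁, hk₁, k₂, hk₂, hgk⟩ := cartanCC514 g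
  rw [hg, Real.log_one, zero_div] at hgk
  have h0 : sclC 0 = 1 := dgC_zero771
  rw [h0, one_mul] at hgk
  have e : sclC (Real.log D / 4) * g
      = k₁ * (sclC (Real.log D / 4) * atC (Real.arcosh (rhoQ g))) * k₂ := by
    conv_lhs => rw [hgk]
    rw [← mul_assoc, ← mul_assoc, sclC_comm771 _ k₁]
    simp only [mul_assoc]
  rw [e, hφ.right k₂ _ hk₂, hφ.left k₁ _ hk₁, sclC_mul_atC771]
  rfl

/-! ## The profile -/

theorem continuous_dgC_val771 :
    Continuous fun p : ℝ × ℝ => ((dgC p.1 p.2 : GL (Fin 2) ℂ) : Matrix (Fin 2) (Fin 2) ℂ) := by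
  simp only [dgC_coe771]
  refine continuous_matrix fun i j => ?_
  fin_cases i <;> fin_cases j <;> simp <;> fun_prop

/-- `(u₁, u₂) ↦ diag(e^{u₁}, e^{u₂})` is continuous into `GL₂(ℂ)`. -/
theorem continuous_dgC771 : Continuous fun p : ℝ × ℝ => dgC p.1 p.2 := by
  rw [Units.continuous_iff]
  refine ⟨continuous_dgC_val771, ?_⟩
  have h : (fun p : ℝ × ℝ => (((dgC p.1 p.2)⁻¹ : GL (Fin 2) ℂ) : Matrix (Fin 2) (Fin 2) ℂ))
      = (fun p : ℝ × ℝ => ((dgC p.1 p.2 : GL (Fin 2) ℂ) : Matrix (Fin 2) (Fin 2) ℂ))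
        ∘ fun p : ℝ × ℝ => (-p.1, -p.2) := by
    funext p
    simp only [Function.comp_apply, dgC_inv771]
  rw [h]
  exact continuous_dgC_val771.comp (by fun_prop)

theorem continuous_rhoC771 : Continuous rhoC := by
  unfold rhoC
  have hv : Continuous fun y : GL (Fin 2) ℂ => (y : Matrix (Fin 2) (Fin 2) ℂ) :=
    Units.continuous_val
  refine Continuous.div ?_ ?_ ?_
  · exact Complex.continuous_re.comp (hv.matrix_conjTranspose.matrix_mul hv).matrix_trace
  · exact continuous_const.mul (continuous_norm.comp hv.matrix_det)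
  · intro y
    have := norm_pos_iff.2 (gl_det_ne_zero514 y)
    positivity

set_option linter.unusedSimpArgs false in
theorem rhoC_dgC771 (u₁ u₂ : ℝ) : rhoC (dgC u₁ u₂) = Real.cosh (u₁ - u₂) := by
  unfold rhoC
  rw [dgC_coe771]
  have h1 : ((!![(Real.exp u₁ : ℂ), 0; 0, (Real.exp u₂ : ℂ)]ᴴ
      * !![(Real.exp u₁ : ℂ), 0; 0, (Real.exp u₂ : ℂ)]).trace).re
      = Real.exp u₁ * Real.exp u₁ + Real.exp u₂ * Real.exp u₂ := by
    simp [Matrix.trace_fin_two, Matrix.mul_apply, Fin.sum_univ_two, Matrix.conjTranspose_apply,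
      ← Complex.ofReal_exp, Complex.conj_ofReal]
  have h2 : ‖(!![(Real.exp u₁ : ℂ), 0; 0, (Real.exp u₂ : ℂ)]).det‖
      = Real.exp u₁ * Real.exp u₂ := by
    rw [Matrix.det_fin_two_of, mul_zero, sub_zero, norm_mul, Complex.norm_real,
      Complex.norm_real, Real.norm_of_nonneg (Real.exp_pos u₁).le,
      Real.norm_of_nonneg (Real.exp_pos u₂).le]
  rw [h1, h2, Real.cosh_eq]
  have e1 : Real.exp (u₁ - u₂) = Real.exp u₁ / Real.exp u₂ := Real.exp_sub u₁ u₂
  have e2 : Real.exp (-(u₁ - u₂)) = Real.exp u₂ / Real.exp u₁ := by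
    rw [neg_sub, Real.exp_sub]
  rw [e1, e2]
  have hx := (Real.exp_pos u₁).ne'
  have hy := (Real.exp_pos u₂).ne'
  field_simp

theorem continuousOn_radT771 : ContinuousOn radT634 (Set.Ici 1) := by
  unfold radT634
  refine ContinuousOn.log ?_ ?_
  · exact (continuous_id.add (Real.continuous_sqrt.comp
      ((continuous_id.pow 2).sub continuous_const))).continuousOn
  · intro ρ hρ
    have h1 : (1 : ℝ) ≤ ρ := hρ
    have h2 := Real.sqrt_nonneg (ρ ^ 2 - 1)
    have : 0 < ρ + Real.sqrt (ρ ^ 2 - 1) := by linarith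
    exact this.ne'

/-- The first clause of `ProfC75`. -/
theorem prof_isProfile771 (φ : GL (Fin 2) ℂ → ℂ) (hφ : IsArchTestC φ) (D : ℝ) :
    IsProfile (profC634 φ D) := by
  refine ⟨?_, ?_⟩
  · have h1 : ContinuousOn (fun ρ : ℝ =>
        ((Real.log D / 4 + radT634 ρ / 2, Real.log D / 4 - radT634 ρ / 2) : ℝ × ℝ))
        (Set.Ici 1) :=
      (continuousOn_const.add (continuousOn_radT771.div_const 2)).prodMk
        (continuousOn_const.sub (continuousOn_radT771.div_const 2))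
    have hc : Continuous (fun p : ℝ × ℝ => φ (dgC p.1 p.2)) := hφ.cont.comp continuous_dgC771
    have h2 : ContinuousOn ((fun p : ℝ × ℝ => φ (dgC p.1 p.2)) ∘ (fun ρ : ℝ =>
        ((Real.log D / 4 + radT634 ρ / 2, Real.log D / 4 - radT634 ρ / 2) : ℝ × ℝ)))
        (Set.Ici 1) := hc.comp_continuousOn h1
    have h3 : profC634 φ D = ((fun p : ℝ × ℝ => φ (dgC p.1 p.2)) ∘ (fun ρ : ℝ =>
        ((Real.log D / 4 + radT634 ρ / 2, Real.log D / 4 - radT634 ρ / 2) : ℝ × ℝ))) := by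
      funext ρ
      rfl
    rw [h3]
    exact h2
  · obtain ⟨M, hM⟩ := hφ.supp.isCompact.bddAbove_image continuous_rhoC771.continuousOn
    have hM' : ∀ g, φ g ≠ 0 → rhoC g ≤ M := fun g hg =>
      hM ⟨g, subset_tsupport _ hg, rfl⟩
    refine ⟨max 1 (M + 1), fun y hy => ?_⟩
    have hy1 : (1 : ℝ) ≤ y := le_trans (le_max_left _ _) hy
    have hyM : M < y := by
      have := le_trans (le_max_right 1 (M + 1)) hy
      linarith
    by_contra hne
    have h := hM' _ hne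
    rw [rhoC_dgC771] at h
    have e : Real.log D / 4 + radT634 y / 2 - (Real.log D / 4 - radT634 y / 2)
        = Real.arcosh y := by
      rw [radT_eq_arcosh771]
      ring
    rw [e, Real.cosh_arcosh hy1] at h
    linarith

/-- **T6.20e.2e.5 `ProfC75`**, VERBATIM. -/
theorem profC771 : ProfC75 :=
  fun φ hφ D _ => ⟨prof_isProfile771 φ hφ D, fun g hg => prof_value771 φ hφ D g hg⟩

end Fermat.Agent.LT.T6.H771

end
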